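/-
S55 / [TATE]-CT (helper12): interface file.

Finite group `G`, `M : Rep ℤ G`, Mathlib's `tateCohomology`.
"Subgroups" are modelled by injective homomorphisms `φ : H →* G` from finite groups `H`
(so that a subgroup of a subgroup is again a test object, and any `Fintype` instance is allowed).
-/
import Mathlib

set_option autoImplicit false

open CategoryTheory CategoryTheory.Limits groupCohomology

namespace Fermat.Agent.S55.TateCT12

variable {G : Type} [Group G] [Fintype G]

/-- `M` has trivial Tate cohomology in degree `n` on every subgroup. -/
def TateZeroAt (M : Rep ℤ G) (n : ℤ) : Prop :=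
  ∀ (H : Type) [Group H] [Fintype H] (φ : H →* G), Function.Injective φ →
    IsZero (tateCohomology (Rep.res φ M) n)

/-- `M` is cohomologically trivial (in the sense of Tate cohomology). -/
def TateTrivial (M : Rep ℤ G) : Prop := ∀ n : ℤ, TateZeroAt M n

/-- The twin-vanishing criterion (Nakayama–Tate): vanishing of `Ĥ^q` and `Ĥ^{q+1}` on all
subgroups implies cohomological triviality. -/
def TwinCriterion (G : Type) [Group G] [Fintype G] : Prop :=
  ∀ (M : Rep ℤ G) (q : ℤ), TateZeroAt M q → TateZeroAt M (q + 1) → TateTrivial M

end Fermat.Agent.S55.TateCT12
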