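/-
S55 / [TATE]-CT (helper12), part 1: modules coinduced from the trivial subgroup are acyclic for
Tate cohomology (all degrees), also after restriction to subgroups.

* `isZero_tate_zero_iff`, `isZero_tate_neg_one_iff` : elementary criteria for `Ĥ^0 = 0`, `Ĥ^{-1} = 0`
* `coind₁ G V` : functions `G → V` with right translation
* `tateTrivial_coind₁` : `TateTrivial (coind₁ G V)`
-/
import Mathlib
import Fermat.Agent.S55.TateCT12.Defs

set_option autoImplicit false
set_option linter.unusedSectionVars false

open CategoryTheory CategoryTheory.Limits groupCohomology groupHomology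

namespace Fermat.Agent.S55.TateCT12

section General

variable {G : Type} [Group G] [Fintype G]

/-- positive degrees: Tate cohomology is group cohomology -/
theorem isZero_tate_of_pos (M : Rep ℤ G) (n : ℕ) [NeZero n]
    (h : IsZero (groupCohomology M n)) : IsZero (tateCohomology M (n : ℤ)) :=
  h.of_iso ((TateCohomology.isoGroupCohomology n).app M)

/-- degrees `≤ -2`: Tate cohomology is group homology -/
theorem isZero_tate_of_neg (M : Rep ℤ G) (n : ℕ) [NeZero n]
    (h : IsZero (groupHomology M n)) : IsZero (tateCohomology M (-((n : ℤ) + 1))) :=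
  h.of_iso ((TateCohomology.isoGroupHomology (-((n : ℤ) + 1)) n rfl).app M)

section Bot

variable (A : Rep ℤ (⊥ : Subgroup G))

theorem isZero_tate_coind_bot_pos (n : ℕ) [NeZero n] :
    IsZero (tateCohomology (Rep.coind (⊥ : Subgroup G).subtype A) (n : ℤ)) := by
  apply isZero_tate_of_pos
  obtain ⟨k, rfl⟩ : ∃ k, n = k + 1 := Nat.exists_eq_succ_of_ne_zero (NeZero.ne n)
  exact (isZero_groupCohomology_succ_of_subsingleton A k).of_iso (coindIso A (k + 1))

theorem isZero_tate_coind_bot_neg (n : ℕ) [NeZero n] :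
    IsZero (tateCohomology (Rep.coind (⊥ : Subgroup G).subtype A) (-((n : ℤ) + 1))) := by
  classical
  apply isZero_tate_of_neg
  obtain ⟨k, rfl⟩ : ∃ k, n = k + 1 := Nat.exists_eq_succ_of_ne_zero (NeZero.ne n)
  have h1 : IsZero (groupHomology (Rep.ind (⊥ : Subgroup G).subtype A) (k + 1)) :=
    (isZero_groupHomology_succ_of_subsingleton A k).of_iso (indIso _ A (k + 1))
  exact h1.of_iso ((groupHomology.functor ℤ G (k + 1)).mapIso (Rep.indCoindIso A).symm)

end Bot

/-! ### degrees `0` and `-1` -/

theorem isZero_tate_zero_iff_exact (M : Rep ℤ G) :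
    IsZero (tateCohomology M 0) ↔ ((tateComplex M).sc' (-1) 0 1).Exact := by
  rw [← HomologicalComplex.exactAt_iff' (tateComplex M) (-1) 0 1 (by simp) (by simp)]
  exact (HomologicalComplex.exactAt_iff_isZero_homology _ _).symm

theorem isZero_tate_neg_one_iff_exact (M : Rep ℤ G) :
    IsZero (tateCohomology M (-1)) ↔ ((tateComplex M).sc' (-2) (-1) 0).Exact := by
  rw [← HomologicalComplex.exactAt_iff' (tateComplex M) (-2) (-1) 0 (by simp) (by simp)]
  exact (HomologicalComplex.exactAt_iff_isZero_homology _ _).symm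

theorem norm_apply' (M : Rep ℤ G) (m : M.V) : M.norm.hom m = ∑ g : G, M.ρ g m := by
  simp [Rep.norm, Representation.norm]

theorem d01_apply (M : Rep ℤ G) (x : (inhomogeneousCochains M).X 0) :
    (inhomogeneousCochains M).d 0 1 x = (cochainsIso₁ M).inv (d₀₁ M ((cochainsIso₀ M).hom x)) := by
  have h := eq_d₀₁_comp_inv M
  have h2 : (inhomogeneousCochains M).d 0 1 =
      (cochainsIso₀ M).hom ≫ d₀₁ M ≫ (cochainsIso₁ M).inv := by
    rw [← h, Iso.hom_inv_id_assoc]
  rw [h2]
  rfl

theorem d10_apply (M : Rep ℤ G) (y : (inhomogeneousChains M).X 1) :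
    (chainsIso₀ M).hom ((inhomogeneousChains M).d 1 0 y) = d₁₀ M ((chainsIso₁ M).hom y) := by
  have h := comp_d₁₀_eq M
  have := congrArg (fun f => f y) (congrArg (fun f => (ConcreteCategory.hom f)) h)
  simpa using this.symm

theorem tateNorm_apply (M : Rep ℤ G) (y : (inhomogeneousChains M).X 0) :
    (cochainsIso₀ M).hom (M.tateNorm y) = ∑ g : G, M.ρ g ((chainsIso₀ M).hom y) := by
  rw [← norm_apply']
  simp [Rep.tateNorm]

theorem d01_eq_zero_iff (M : Rep ℤ G) (m : M.V) : d₀₁ M m = 0 ↔ ∀ g, M.ρ g m = m := by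
  constructor
  · intro h g
    have := congrFun h g
    rw [d₀₁_hom_apply] at this
    exact sub_eq_zero.mp this
  · intro h
    funext g
    rw [d₀₁_hom_apply, h g, sub_self]
    rfl

theorem isZero_tate_zero_iff (M : Rep ℤ G) :
    IsZero (tateCohomology M 0) ↔
      ∀ m : M.V, (∀ g, M.ρ g m = m) → ∃ m' : M.V, ∑ g : G, M.ρ g m' = m := by
  rw [isZero_tate_zero_iff_exact, ShortComplex.moduleCat_exact_iff]
  constructor
  · intro h m hm
    have h0 : (inhomogeneousCochains M).d 0 1 ((cochainsIso₀ M).inv m) = 0 := by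
      rw [d01_apply]
      have : d₀₁ M ((cochainsIso₀ M).hom ((cochainsIso₀ M).inv m)) = 0 := by
        have h1 : (cochainsIso₀ M).hom ((cochainsIso₀ M).inv m) = m := by simp
        rw [h1]
        exact (d01_eq_zero_iff M m).mpr hm
      rw [this, map_zero]
    obtain ⟨y, hy⟩ := h ((cochainsIso₀ M).inv m) h0
    let y' : (inhomogeneousChains M).X 0 := y
    have hy' : M.tateNorm y' = (cochainsIso₀ M).inv m := hy
    refine ⟨(chainsIso₀ M).hom y', ?_⟩
    rw [← tateNorm_apply, hy']
    simp
  · intro h x hx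
    let x' : (inhomogeneousCochains M).X 0 := x
    have hx' : (inhomogeneousCochains M).d 0 1 x' = 0 := hx
    rw [d01_apply] at hx'
    have h1 : d₀₁ M ((cochainsIso₀ M).hom x') = 0 := by
      have := congrArg (cochainsIso₁ M).hom hx'
      simpa using this
    obtain ⟨m', hm'⟩ := h _ ((d01_eq_zero_iff M _).mp h1)
    refine ⟨(chainsIso₀ M).inv m', ?_⟩
    show M.tateNorm ((chainsIso₀ M).inv m') = x'
    have h3 : (cochainsIso₀ M).hom (M.tateNorm ((chainsIso₀ M).inv m')) =
        (cochainsIso₀ M).hom x' := by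
      rw [tateNorm_apply, ← hm']
      simp
    have := congrArg (cochainsIso₀ M).inv h3
    simpa using this

theorem isZero_tate_neg_one_iff (M : Rep ℤ G) :
    IsZero (tateCohomology M (-1)) ↔
      ∀ m : M.V, ∑ g : G, M.ρ g m = 0 → ∃ y : G →₀ M.V, d₁₀ M y = m := by
  rw [isZero_tate_neg_one_iff_exact, ShortComplex.moduleCat_exact_iff]
  constructor
  · intro h m hm
    have h0 : M.tateNorm ((chainsIso₀ M).inv m) = 0 := by
      have h3 : (cochainsIso₀ M).hom (M.tateNorm ((chainsIso₀ M).inv m)) = 0 := by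
        rw [tateNorm_apply]
        simpa using hm
      have := congrArg (cochainsIso₀ M).inv h3
      simpa using this
    obtain ⟨y, hy⟩ := h ((chainsIso₀ M).inv m) h0
    let y' : (inhomogeneousChains M).X 1 := y
    have hy' : (inhomogeneousChains M).d 1 0 y' = (chainsIso₀ M).inv m := hy
    refine ⟨(chainsIso₁ M).hom y', ?_⟩
    rw [← d10_apply, hy']
    simp
  · intro h x hx
    let x' : (inhomogeneousChains M).X 0 := x
    have hx' : M.tateNorm x' = 0 := hx
    have h1 : ∑ g : G, M.ρ g ((chainsIso₀ M).hom x') = 0 := by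
      rw [← tateNorm_apply, hx', map_zero]
    obtain ⟨y, hy⟩ := h _ h1
    refine ⟨(chainsIso₁ M).inv y, ?_⟩
    show (inhomogeneousChains M).d 1 0 ((chainsIso₁ M).inv y) = x'
    have h3 : (chainsIso₀ M).hom ((inhomogeneousChains M).d 1 0 ((chainsIso₁ M).inv y)) =
        (chainsIso₀ M).hom x' := by
      rw [d10_apply, ← hy]
      simp
    have := congrArg (chainsIso₀ M).inv h3
    simpa using this


end General

/-! ### the coinduced module `coind₁ G V` -/

section Coind

variable (G : Type) [Group G] (V : Type) [AddCommGroup V]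

/-- right translation action of `G` on functions `G → V`. -/
def funRep : Representation ℤ G (G → V) where
  toFun g := LinearMap.funLeft ℤ V (· * g)
  map_one' := by ext f x; simp
  map_mul' g h := by ext f x; simp [mul_assoc]

@[simp] theorem funRep_apply (g : G) (f : G → V) (x : G) : funRep G V g f x = f (x * g) := rfl

/-- the module coinduced from the trivial subgroup. -/
abbrev coind₁ : Rep ℤ G := Rep.of (funRep G V)

variable [Fintype G]

theorem isZero_tate_coind₁_zero : IsZero (tateCohomology (coind₁ G V) 0) := by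
  classical
  rw [isZero_tate_zero_iff]
  intro (m : G → V) hm
  refine ⟨(Pi.single (1 : G) (m 1) : G → V), ?_⟩
  funext x
  have hx : m x = m 1 := by
    have h1 : (funRep G V x m) 1 = m 1 := congrFun (hm x) 1
    rw [funRep_apply, one_mul] at h1
    exact h1
  show (∑ g : G, funRep G V g (Pi.single (1 : G) (m 1))) x = m x
  rw [Finset.sum_apply]
  simp only [funRep_apply]
  rw [Finset.sum_eq_single x⁻¹]
  · simp [hx]
  · intro g _ hg
    rw [Pi.single_apply, if_neg]
    intro h
    exact hg (eq_inv_of_mul_eq_one_right h)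
  · intro h; exact absurd (Finset.mem_univ _) h

theorem isZero_tate_coind₁_neg_one : IsZero (tateCohomology (coind₁ G V) (-1)) := by
  classical
  rw [isZero_tate_neg_one_iff]
  intro (m : G → V) hm
  have hsum : ∑ g : G, m g = 0 := by
    have h1 : (∑ g : G, (coind₁ G V).ρ g m) 1 = (0 : G → V) 1 := congrFun hm 1
    rw [Finset.sum_apply, Pi.zero_apply] at h1
    simpa using h1
  let y : G →₀ (G → V) := ∑ g : G, Finsupp.single g (Pi.single (1 : G) (m g))
  refine ⟨y, ?_⟩
  have hy : d₁₀ (coind₁ G V) y =
      ∑ g : G, ((coind₁ G V).ρ g⁻¹ (Pi.single (1 : G) (m g) : G → V) -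
        (Pi.single (1 : G) (m g) : G → V)) := by
    show d₁₀ (coind₁ G V) (∑ g : G, Finsupp.single g (Pi.single (1 : G) (m g))) = _
    rw [map_sum]
    refine Finset.sum_congr rfl fun g _ => ?_
    exact d₁₀_single (coind₁ G V) g _
  rw [hy]
  funext x
  rw [Finset.sum_apply]
  have h2 : ∀ g : G, ((coind₁ G V).ρ g⁻¹ (Pi.single (1 : G) (m g) : G → V) -
        (Pi.single (1 : G) (m g) : G → V)) x =
      (if g = x then m g else 0) - (if x = 1 then m g else 0) := by
    intro g
    show (funRep G V g⁻¹ (Pi.single (1 : G) (m g))) x - (Pi.single (1 : G) (m g) : G → V) x = _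
    rw [funRep_apply, Pi.single_apply, Pi.single_apply]
    congr 1
    by_cases h : g = x
    · subst h; simp
    · rw [if_neg h, if_neg]
      intro h'
      exact h (mul_inv_eq_one.mp h').symm
  simp_rw [h2]
  rw [Finset.sum_sub_distrib, Finset.sum_ite_eq' Finset.univ x m]
  by_cases hx : x = 1
  · simp [hx, hsum]
  · simp [hx]

theorem coindV_bot_eq_top :
    Representation.coindV (⊥ : Subgroup G).subtype
      (Representation.trivial ℤ (⊥ : Subgroup G) V) = ⊤ := by
  ext f
  simp only [Representation.mem_coindV, Submodule.mem_top, iff_true]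
  intro g h
  have hg : (g : G) = 1 := Subgroup.mem_bot.mp g.2
  simp [hg]

/-- `coind₁ G V` is the Mathlib coinduction from the trivial subgroup. -/
def coind₁IsoCoindBot :
    coind₁ G V ≅ Rep.coind (⊥ : Subgroup G).subtype (Rep.trivial ℤ (⊥ : Subgroup G) V) :=
  Rep.mkIso (Representation.Equiv.mk (LinearEquiv.ofTop _ (coindV_bot_eq_top G V)).symm (by
    intro g
    ext f x
    rfl))

theorem isZero_tate_coind₁ (n : ℤ) : IsZero (tateCohomology (coind₁ G V) n) := by
  rcases lt_trichotomy n 0 with h | h | h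
  · rcases eq_or_ne n (-1) with h1 | h1
    · subst h1; exact isZero_tate_coind₁_neg_one G V
    · obtain ⟨k, hk⟩ : ∃ k : ℕ, n = -(((k + 1 : ℕ) : ℤ) + 1) := ⟨(-n - 2).toNat, by omega⟩
      subst hk
      exact (isZero_tate_coind_bot_neg (Rep.trivial ℤ (⊥ : Subgroup G) V) (k + 1)).of_iso
        ((tateCohomologyFunctor _).mapIso (coind₁IsoCoindBot G V))
  · subst h; exact isZero_tate_coind₁_zero G V
  · obtain ⟨k, hk⟩ : ∃ k : ℕ, n = ((k + 1 : ℕ) : ℤ) := ⟨(n - 1).toNat, by omega⟩
    subst hk
    exact (isZero_tate_coind_bot_pos (Rep.trivial ℤ (⊥ : Subgroup G) V) (k + 1)).of_iso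
      ((tateCohomologyFunctor _).mapIso (coind₁IsoCoindBot G V))

end Coind

section Res

variable {G H : Type} [Group G] [Group H] (φ : H →* G) (hφ : Function.Injective φ)
  (V : Type) [AddCommGroup V]

/-- the `H`-component of `x : G` with respect to the chosen coset representatives of `φ.range`. -/
noncomputable def cosetComp (x : G) : H :=
  (MonoidHom.ofInjective hφ).symm
    ⟨(Quotient.out (QuotientGroup.mk x : G ⧸ φ.range))⁻¹ * x, by
      rw [← QuotientGroup.eq]
      exact QuotientGroup.out_eq' _⟩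

theorem out_mul_cosetComp (x : G) :
    Quotient.out (QuotientGroup.mk x : G ⧸ φ.range) * φ (cosetComp φ hφ x) = x := by
  rw [cosetComp, MonoidHom.apply_ofInjective_symm]
  simp

theorem mk_out_mul (q : G ⧸ φ.range) (h : H) :
    (QuotientGroup.mk (Quotient.out q * φ h) : G ⧸ φ.range) = q := by
  have hm : φ h ∈ φ.range := ⟨h, rfl⟩
  rw [QuotientGroup.mk_mul_of_mem _ hm]
  exact QuotientGroup.out_eq' q

theorem cosetComp_out_mul (q : G ⧸ φ.range) (h : H) :
    cosetComp φ hφ (Quotient.out q * φ h) = h := by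
  apply hφ
  have h1 := out_mul_cosetComp φ hφ (Quotient.out q * φ h)
  rw [mk_out_mul] at h1
  exact mul_left_cancel h1

/-- restriction of a coinduced module to a subgroup is coinduced. -/
noncomputable def resCoind₁Equiv : (G → V) ≃ₗ[ℤ] (H → (G ⧸ φ.range → V)) where
  toFun f h q := f (Quotient.out q * φ h)
  invFun F x := F (cosetComp φ hφ x) (QuotientGroup.mk x)
  map_add' f f' := rfl
  map_smul' c f := rfl
  left_inv f := by
    funext x
    show f (Quotient.out (QuotientGroup.mk x : G ⧸ φ.range) * φ (cosetComp φ hφ x)) = f x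
    rw [out_mul_cosetComp]
  right_inv F := by
    funext h q
    show F (cosetComp φ hφ (Quotient.out q * φ h)) (QuotientGroup.mk (Quotient.out q * φ h)) = F h q
    rw [cosetComp_out_mul, mk_out_mul]

noncomputable def resCoind₁Iso :
    Rep.res φ (coind₁ G V) ≅ coind₁ H (G ⧸ φ.range → V) :=
  Rep.mkIso (Representation.Equiv.mk (resCoind₁Equiv φ hφ V) (by
    intro h
    ext f h' q
    show f (Quotient.out q * φ h' * φ h) = f (Quotient.out q * φ (h' * h))
    rw [map_mul, mul_assoc]))

theorem tateTrivial_coind₁ [Fintype G] : TateTrivial (coind₁ G V) := by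
  intro n H _ _ φ hφ
  exact (isZero_tate_coind₁ H _ n).of_iso ((tateCohomologyFunctor n).mapIso (resCoind₁Iso φ hφ V))

end Res

end Fermat.Agent.S55.TateCT12
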