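/-
S55 / [TATE]-CT (helper12): relatively projective modules have trivial Tate cohomology.

`X : Rep ℤ H` with an additive `π : X.V →+ X.V` such that `∑ h, ρ h (π (ρ h⁻¹ a)) = a` is a
retract of `coind₁ H X.V`, hence Tate-acyclic.  This is helper45's `T1Statement` with the
hypothesis unfolded (additive maps avoid the `Module ℤ` instance diamond on `X.V`).
-/
import Fermat.Agent.S55.TateCT12.Acyclic

set_option autoImplicit false

open CategoryTheory CategoryTheory.Limits

namespace Fermat.Agent.S55.TateCT12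

section Lin

variable {A B : Type} [AddCommGroup A] [AddCommGroup B]

/-- an additive map between `ℤ`-modules (for ARBITRARY `Module ℤ` instances) is linear. -/
def linOfAdd (mA : Module ℤ A) (mB : Module ℤ B) (f : A →+ B) :
    @LinearMap ℤ ℤ _ _ (RingHom.id ℤ) A B _ _ mA mB :=
  @LinearMap.mk ℤ ℤ _ _ (RingHom.id ℤ) A B _ _ mA mB ⟨f, f.map_add⟩ (fun n a => by
    have h1 := int_smul_eq_zsmul mA n a
    have h2 := int_smul_eq_zsmul mB n (f a)
    exact (congrArg f h1).trans ((map_zsmul f n a).trans h2.symm))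

@[simp] theorem linOfAdd_apply (mA : Module ℤ A) (mB : Module ℤ B) (f : A →+ B) (a : A) :
    linOfAdd mA mB f a = f a := rfl

end Lin

section RelProj

variable {H : Type} [Group H] (X : Rep ℤ H)

attribute [local instance 10000] Rep.hV2

/-- `a ↦ (x ↦ ρ x a)` as an additive map. -/
def orbitAdd : X.V →+ (H → X.V) where
  toFun a := fun x => X.ρ x a
  map_zero' := by funext x; exact (X.ρ x).map_zero
  map_add' a b := by funext x; exact (X.ρ x).map_add a b

/-- the canonical embedding `X ⟶ coind₁ H X.V`, `a ↦ (x ↦ ρ x a)`. -/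
noncomputable def orbitHom : X ⟶ coind₁ H X.V :=
  ConcreteCategory.ofHom (C := Rep ℤ H) (X := X) (Y := coind₁ H X.V)
    (@Representation.IntertwiningMap.mk ℤ H X.V (H → X.V) _ _ _ _ X.hV2 _ X.ρ (funRep H X.V)
      (linOfAdd X.hV2 _ (orbitAdd X)) (fun g => by
        apply LinearMap.ext
        intro a
        funext x
        show X.ρ x (X.ρ g a) = X.ρ (x * g) a
        rw [map_mul]; rfl))

@[simp] theorem orbitHom_apply (a : X.V) (x : H) : (orbitHom X).hom a x = X.ρ x a := rfl

theorem orbitHom_injective : Function.Injective (orbitHom X).hom := by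
  intro a b hab
  have h := congrFun hab 1
  rw [orbitHom_apply, orbitHom_apply, map_one] at h
  exact h

variable [Fintype H]

/-- `f ↦ ∑ x, ρ x⁻¹ (π (f x))` as an additive map. -/
def retrAdd (π : X.V →+ X.V) : (H → X.V) →+ X.V where
  toFun f := ∑ x, X.ρ x⁻¹ (π (f x))
  map_zero' := by simp
  map_add' f g := by simp [Finset.sum_add_distrib]

/-- the retraction `coind₁ H X.V ⟶ X`, `f ↦ ∑ x, ρ x⁻¹ (π (f x))`, for an additive `π`. -/
noncomputable def retrHom (π : X.V →+ X.V) : coind₁ H X.V ⟶ X :=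
  ConcreteCategory.ofHom (C := Rep ℤ H) (X := coind₁ H X.V) (Y := X)
    (@Representation.IntertwiningMap.mk ℤ H (H → X.V) X.V _ _ _ _ _ X.hV2 (funRep H X.V) X.ρ
      (linOfAdd _ X.hV2 (retrAdd X π)) (fun g => by
        apply LinearMap.ext
        intro f
        show ∑ x, X.ρ x⁻¹ (π (f (x * g))) = X.ρ g (∑ x, X.ρ x⁻¹ (π (f x)))
        rw [map_sum]
        refine Fintype.sum_equiv (Equiv.mulRight g) _ _ fun x => ?_
        show X.ρ x⁻¹ (π (f (x * g))) = X.ρ g (X.ρ (x * g)⁻¹ (π (f (x * g))))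
        rw [← Module.End.mul_apply, ← map_mul, mul_inv_rev, mul_inv_cancel_left]))

@[simp] theorem retrHom_apply (π : X.V →+ X.V) (f : H → X.V) :
    (retrHom X π).hom f = ∑ x, X.ρ x⁻¹ (π (f x)) := rfl

theorem orbitHom_retrHom (π : X.V →+ X.V)
    (hπ : ∀ a : X.V, ∑ h : H, X.ρ h (π (X.ρ h⁻¹ a)) = a) :
    orbitHom X ≫ retrHom X π = 𝟙 X := by
  apply Rep.hom_ext
  apply Representation.IntertwiningMap.ext
  apply LinearMap.ext
  intro a
  show ∑ x, X.ρ x⁻¹ (π (X.ρ x a)) = a
  refine Eq.trans ?_ (hπ a)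
  exact Fintype.sum_equiv (Equiv.inv H) _ _ fun x => by simp

/-- a retract of a Tate-acyclic module is Tate-acyclic. -/
theorem isZero_tate_of_retract {X Y : Rep ℤ H} (i : X ⟶ Y) (r : Y ⟶ X) (h : i ≫ r = 𝟙 X) (n : ℤ)
    (hY : IsZero (tateCohomology Y n)) : IsZero (tateCohomology X n) := by
  rw [IsZero.iff_id_eq_zero]
  have h1 : (tateCohomologyFunctor n).map i ≫ (tateCohomologyFunctor n).map r = 𝟙 _ := by
    rw [← CategoryTheory.Functor.map_comp, h, CategoryTheory.Functor.map_id]
  rw [← h1]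
  have hz : (tateCohomologyFunctor n).map i = 0 := hY.eq_of_tgt _ _
  rw [hz, zero_comp]

/-- **Relatively projective modules are Tate-acyclic** (helper45's `T1Statement`, unfolded). -/
theorem isZero_tate_of_relProj (π : X.V →+ X.V)
    (hπ : ∀ a : X.V, ∑ h : H, X.ρ h (π (X.ρ h⁻¹ a)) = a) (n : ℤ) :
    IsZero (tateCohomology X n) :=
  isZero_tate_of_retract (orbitHom X) (retrHom X π) (orbitHom_retrHom X π hπ) n
    (isZero_tate_coind₁ H X.V n)

/-- the same with a `ℤ`-linear `π` (for the `Module ℤ` instance `X.hV2` of `Rep`). -/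
theorem isZero_tate_of_relProj' (π : @LinearMap ℤ ℤ _ _ (RingHom.id ℤ) X.V X.V _ _ X.hV2 X.hV2)
    (hπ : (∑ h : H, X.ρ h ∘ₗ π ∘ₗ X.ρ h⁻¹) = LinearMap.id) (n : ℤ) :
    IsZero (tateCohomology X n) := by
  refine isZero_tate_of_relProj X π.toAddMonoidHom (fun a => ?_) n
  have h := LinearMap.congr_fun hπ a
  rw [LinearMap.sum_apply] at h
  exact h

end RelProj

end Fermat.Agent.S55.TateCT12
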