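/-
S55 / [TATE]-CT (helper12): wiring of `tateTrivial_coind₁` into helper43's interface
(`TateNak43.RegularStatement ℤ G`).
-/
import Fermat.Agent.S55.TateCT12.Acyclic
import Fermat.Agent.S55.TateNak43.Triv

set_option autoImplicit false

open CategoryTheory CategoryTheory.Limits

namespace Fermat.Agent.S55.TateCT12

section Wire

variable {G : Type} [Group G] [Fintype G]

/-- `TateTrivial` (test homomorphisms) implies helper43's `CohTrivial` (subgroups with the
`Fintype.ofFinite` instance). -/
theorem cohTrivial_of_tateTrivial {A : Rep ℤ G} (hA : TateTrivial A) : TateNak43.CohTrivial A := by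
  intro H n
  exact @hA n H _ (Fintype.ofFinite H) H.subtype H.subtype_injective

/-- inversion `f ↦ (x ↦ f x⁻¹)` intertwines left and right translation. -/
def invEquiv (G : Type) [Group G] : (G → ℤ) ≃ₗ[ℤ] (G → ℤ) where
  toFun f := fun x => f x⁻¹
  map_add' _ _ := rfl
  map_smul' _ _ := rfl
  invFun f := fun x => f x⁻¹
  left_inv f := by funext x; simp
  right_inv f := by funext x; simp

/-- helper43's regular representation (left translation on functions) is `coind₁ G ℤ`. -/
noncomputable def funRepIso (G : Type) [Group G] : TateNak43.funRep ℤ G ≅ coind₁ G ℤ :=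
  Rep.mkIso (Representation.Equiv.mk (invEquiv G) (by
    intro g
    ext f x
    show f (g⁻¹ * x⁻¹) = f ((x * g)⁻¹)
    rw [mul_inv_rev]))

/-- **`ℤ[G]` is cohomologically trivial** (helper43's `RegularStatement`). -/
theorem regularStatement (G : Type) [Group G] [Fintype G] : TateNak43.RegularStatement ℤ G :=
  TateNak43.CohTrivial.of_iso (cohTrivial_of_tateTrivial (tateTrivial_coind₁ (G := G) ℤ))
    (funRepIso G).symm

end Wire

end Fermat.Agent.S55.TateCT12
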