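/-
S55 / [TATE]-CT (helper12): the p-group core of the Nakayama–Tate criterion, cohomological form.

`P` a finite `p`-group acting additively on an abelian group `X` with `p X = 0`.
* `exists_fixed_ne_zero`: a nonzero element generates a finite stable subgroup, which contains a
  nonzero fixed element.
* `exists_relProj_of_Z1`: if every 1-cocycle `P → X` is a coboundary, then `X ≃ (P → X^P)`
  equivariantly (right translation), hence the identity of `X` is a norm:
  `∃ π : X →+ X, ∀ a, ∑ h, σ h (π (σ h⁻¹ a)) = a`.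
-/
import Mathlib

set_option autoImplicit false
set_option linter.style.haveILetI false

namespace Fermat.Agent.S55.TateCT12

section FixedPoint

variable {p : ℕ} [hp : Fact p.Prime] {P : Type} [Group P] [Finite P]

/-- **Fixed point lemma.** A finite `p`-group acting additively on a `p`-torsion abelian group:
every nonzero element `x₀` has a nonzero fixed element in the subgroup generated by its orbit. -/
theorem exists_fixed_ne_zero (hP : IsPGroup p P) {X : Type} [AddCommGroup X]
    (σ : P → X →+ X) (h1 : ∀ x, σ 1 x = x) (hmul : ∀ g h x, σ (g * h) x = σ g (σ h x))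
    (hpX : ∀ x : X, p • x = 0) (x₀ : X) (hx₀ : x₀ ≠ 0) :
    ∃ x : X, x ≠ 0 ∧ (∀ g, σ g x = x) ∧
      x ∈ AddSubgroup.closure (Set.range fun g => σ g x₀) := by
  classical
  set T : Set X := Set.range fun g => σ g x₀ with hT
  set S : AddSubgroup X := AddSubgroup.closure T with hS
  have hTfin : T.Finite := Set.finite_range _
  have hstab : ∀ g, ∀ s ∈ S, σ g s ∈ S := by
    intro g
    have hle : S ≤ S.comap (σ g) := by
      rw [hS, AddSubgroup.closure_le]
      rintro _ ⟨h, rfl⟩
      show σ g (σ h x₀) ∈ AddSubgroup.closure T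
      rw [← hmul]
      exact AddSubgroup.subset_closure ⟨g * h, rfl⟩
    exact fun s hs => hle hs
  have hx₀S : x₀ ∈ S := AddSubgroup.subset_closure ⟨1, h1 x₀⟩
  haveI : Finite S := by
    haveI : AddGroup.FG S := by
      rw [AddGroup.fg_iff_addSubgroup_fg]
      exact (AddSubgroup.fg_iff _).2 ⟨T, rfl, hTfin⟩
    refine AddCommGroup.finite_of_fg_isAddTorsion S ?_
    intro s
    rw [isOfFinAddOrder_iff_nsmul_eq_zero]
    exact ⟨p, hp.out.pos, Subtype.ext (hpX s.1)⟩
  letI : MulAction P S :=
    { smul := fun g s => ⟨σ g s, hstab g s s.2⟩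
      one_smul := fun s => Subtype.ext (h1 s)
      mul_smul := fun g h s => Subtype.ext (hmul g h s) }
  have hdvd : p ∣ Nat.card S := by
    have h2 : addOrderOf (⟨x₀, hx₀S⟩ : S) = p := by
      apply addOrderOf_eq_prime
      · exact Subtype.ext (hpX x₀)
      · intro h
        exact hx₀ (congrArg Subtype.val h)
    rw [← h2]
    exact addOrderOf_dvd_natCard _
  have h0 : (0 : S) ∈ MulAction.fixedPoints P S := by
    intro g
    exact Subtype.ext (map_zero (σ g))
  obtain ⟨b, hb, hb0⟩ := hP.exists_fixed_point_of_prime_dvd_card_of_fixed_point S hdvd h0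
  refine ⟨b.1, ?_, ?_, b.2⟩
  · intro h
    exact hb0 (Subtype.ext h.symm)
  · intro g
    exact congrArg Subtype.val (hb g)

/-- an additive retraction onto a subgroup of a `ZMod p`-vector space. -/
theorem exists_retraction_aux {X : Type} [AddCommGroup X] [Module (ZMod p) X]
    (I : AddSubgroup X) : ∃ r : X →+ I, ∀ i : I, r i = i := by
  obtain ⟨g, hg⟩ := LinearMap.exists_leftInverse_of_injective
    (AddSubgroup.toZModSubmodule p I).subtype (Submodule.ker_subtype _)
  have hmem : ∀ x : X, ((g x : AddSubgroup.toZModSubmodule p I) : X) ∈ I := fun x =>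
    (AddSubgroup.mem_toZModSubmodule p).1 (g x).2
  refine ⟨AddMonoidHom.mk' (fun x => ⟨(g x : X), hmem x⟩) (fun a b => ?_), fun i => ?_⟩
  · apply Subtype.ext
    show ((g (a + b) : AddSubgroup.toZModSubmodule p I) : X) = (g a : X) + (g b : X)
    rw [map_add]; rfl
  · apply Subtype.ext
    have hi : (i : X) ∈ AddSubgroup.toZModSubmodule p I :=
      (AddSubgroup.mem_toZModSubmodule p).2 i.2
    have := LinearMap.congr_fun hg ⟨(i : X), hi⟩
    exact congrArg Subtype.val this

/-- an additive retraction onto a subgroup of a `p`-torsion abelian group. -/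
theorem exists_retraction {X : Type} [AddCommGroup X] (hpX : ∀ x : X, p • x = 0)
    (I : AddSubgroup X) : ∃ r : X →+ I, ∀ i : I, r i = i :=
  letI : Module (ZMod p) X := AddCommGroup.zmodModule hpX
  exists_retraction_aux (p := p) I

end FixedPoint


section Core

variable {p : ℕ} [hp : Fact p.Prime] {P : Type} [Group P] [Fintype P]
  {X : Type} [AddCommGroup X] (σ : P → X →+ X)

/-- the invariants of an additive action, as an additive subgroup. -/
def invSub : AddSubgroup X where
  carrier := {x | ∀ g, σ g x = x}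
  add_mem' := fun {a b} ha hb g => by rw [map_add, ha g, hb g]
  zero_mem' := fun g => map_zero _
  neg_mem' := fun {a} ha g => by rw [map_neg, ha g]

omit [Group P] [Fintype P] in
theorem mem_invSub {x : X} : x ∈ invSub σ ↔ ∀ g, σ g x = x := Iff.rfl

/-- right translation on functions `P → Y`. -/
def rtrans (Y : Type) [AddCommGroup Y] (g : P) : (P → Y) →+ (P → Y) where
  toFun f := fun x => f (x * g)
  map_zero' := rfl
  map_add' _ _ := rfl

omit [Fintype P] in
@[simp] theorem rtrans_apply (Y : Type) [AddCommGroup Y] (g : P) (f : P → Y) (x : P) :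
    rtrans Y g f x = f (x * g) := rfl

/-- **p-group core, cohomological form.**  `P` a finite `p`-group acting on a `p`-torsion abelian
group `X` such that every 1-cocycle is a coboundary.  Then `X ≃ (P → X^P)` equivariantly and hence
the identity of `X` is a norm. -/
theorem exists_relProj_of_Z1 (hP : IsPGroup p P) (h1 : ∀ x, σ 1 x = x)
    (hmul : ∀ g h x, σ (g * h) x = σ g (σ h x)) (hpX : ∀ x : X, p • x = 0)
    (hZ1 : ∀ c : P → X, (∀ g h, c (g * h) = σ g (c h) + c g) → ∃ m, ∀ g, c g = σ g m - m) :
    ∃ π : X →+ X, ∀ a, ∑ h, σ h (π (σ h⁻¹ a)) = a := by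
  classical
  obtain ⟨r, hr⟩ := exists_retraction hpX (invSub σ)
  let Φ : X →+ (P → invSub σ) :=
    { toFun := fun m x => r (σ x m)
      map_zero' := by funext x; simp
      map_add' := fun a b => by funext x; simp }
  have hΦ : ∀ m x, Φ m x = r (σ x m) := fun _ _ => rfl
  let τ : P → (P → invSub σ) →+ (P → invSub σ) := rtrans (invSub σ)
  have hτ : ∀ g f x, τ g f x = f (x * g) := fun _ _ _ => rfl
  have hτmul : ∀ g h f, τ (g * h) f = τ g (τ h f) := by
    intro g h f; funext x; rw [hτ, hτ, hτ, mul_assoc]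
  have hequiv : ∀ g m, Φ (σ g m) = τ g (Φ m) := by
    intro g m; funext x
    rw [hτ, hΦ, hΦ, hmul]
  have hfix : ∀ v : invSub σ, Φ (v : X) = fun _ => v := by
    intro v; funext x
    rw [hΦ, v.2 x, hr]
  -- injectivity
  have hinj : Function.Injective Φ := by
    rw [injective_iff_map_eq_zero]
    intro m₀ hm₀
    by_contra hne
    obtain ⟨x, hx0, hxfix, hxmem⟩ := exists_fixed_ne_zero hP σ h1 hmul hpX m₀ hne
    have hle : AddSubgroup.closure (Set.range fun g => σ g m₀) ≤ Φ.ker := by
      rw [AddSubgroup.closure_le]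
      rintro _ ⟨g, rfl⟩
      show Φ (σ g m₀) = 0
      rw [hequiv, hm₀, map_zero]
    have hx : Φ x = 0 := hle hxmem
    have h2 := congrFun (hfix ⟨x, hxfix⟩) 1
    change Φ x 1 = ⟨x, hxfix⟩ at h2
    rw [hx] at h2
    exact hx0 (congrArg Subtype.val h2.symm)
  -- surjectivity
  have hsurj : Function.Surjective Φ := by
    intro f₀
    by_contra hf₀
    have hNτ : ∀ g, Φ.range ≤ Φ.range.comap (τ g) := by
      rintro g _ ⟨m, rfl⟩
      exact ⟨σ g m, hequiv g m⟩
    let σQ : P → ((P → invSub σ) ⧸ Φ.range) →+ ((P → invSub σ) ⧸ Φ.range) :=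
      fun g => QuotientAddGroup.map Φ.range Φ.range (τ g) (hNτ g)
    have hσQ : ∀ g f, σQ g (QuotientAddGroup.mk f) = QuotientAddGroup.mk (τ g f) :=
      fun g f => QuotientAddGroup.map_mk _ _ _ _ _
    have hq1 : ∀ q, σQ 1 q = q := by
      intro q
      induction q using QuotientAddGroup.induction_on with
      | H f =>
        rw [hσQ]
        congr 1
        funext x
        rw [hτ, mul_one]
    have hqmul : ∀ g h q, σQ (g * h) q = σQ g (σQ h q) := by
      intro g h q
      induction q using QuotientAddGroup.induction_on with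
      | H f => rw [hσQ, hσQ, hσQ, hτmul]
    have hpQ : ∀ q : (P → invSub σ) ⧸ Φ.range, p • q = 0 := by
      intro q
      induction q using QuotientAddGroup.induction_on with
      | H f =>
        have h0 : p • f = 0 := by
          funext x
          exact Subtype.ext (hpX _)
        rw [← QuotientAddGroup.mk_nsmul, h0]
        rfl
    have hq₀ : (QuotientAddGroup.mk f₀ : (P → invSub σ) ⧸ Φ.range) ≠ 0 := by
      rw [Ne, QuotientAddGroup.eq_zero_iff]
      rintro ⟨m, hm⟩
      exact hf₀ ⟨m, hm⟩
    obtain ⟨q, hq0, hqfix, -⟩ := exists_fixed_ne_zero hP σQ hq1 hqmul hpQ _ hq₀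
    obtain ⟨f, rfl⟩ := QuotientAddGroup.mk_surjective q
    apply hq0
    rw [QuotientAddGroup.eq_zero_iff]
    have hc : ∀ g, ∃ m, Φ m = τ g f - f := by
      intro g
      have h := hqfix g
      rw [hσQ, QuotientAddGroup.eq] at h
      obtain ⟨m, hm⟩ := h
      refine ⟨-m, ?_⟩
      rw [map_neg, hm]
      abel
    choose c hc using hc
    have hcoc : ∀ g h, c (g * h) = σ g (c h) + c g := by
      intro g h
      apply hinj
      rw [map_add, hequiv, hc, hc, hc, map_sub, hτmul]
      abel
    obtain ⟨m, hm⟩ := hZ1 c hcoc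
    have hf' : ∀ g, τ g (f - Φ m) = f - Φ m := by
      intro g
      have h2 : σ g m = c g + m := by rw [hm g]; abel
      rw [map_sub, ← hequiv, h2, map_add, hc]
      abel
    have hconst : f - Φ m = fun _ => (f - Φ m) 1 := by
      funext x
      have h3 := congrFun (hf' x) 1
      rw [hτ, one_mul] at h3
      exact h3
    refine ⟨m + (((f - Φ m) 1 : invSub σ) : X), ?_⟩
    rw [map_add, hfix, ← hconst]
    abel
  -- conclusion
  let e : X ≃+ (P → invSub σ) := AddEquiv.ofBijective Φ ⟨hinj, hsurj⟩
  have he : ∀ y, Φ (e.symm y) = y := fun y => e.apply_symm_apply y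
  let π' : (P → invSub σ) →+ (P → invSub σ) :=
    (AddMonoidHom.single (fun _ : P => invSub σ) 1).comp
      (Pi.evalAddMonoidHom (fun _ : P => invSub σ) 1)
  have hπ' : ∀ f, π' f = Pi.single 1 (f 1) := fun _ => rfl
  refine ⟨(e.symm.toAddMonoidHom.comp π').comp Φ, fun a => ?_⟩
  apply hinj
  rw [map_sum]
  funext x
  rw [Finset.sum_apply]
  have hterm : ∀ h : P, Φ (σ h (e.symm (π' (Φ (σ h⁻¹ a))))) x
      = if h = x⁻¹ then Φ a x else 0 := by
    intro h
    rw [hequiv, hτ, he, hπ', hequiv, hτ, one_mul, Pi.single_apply]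
    by_cases hh : h = x⁻¹
    · subst hh
      simp
    · rw [if_neg hh, if_neg]
      intro h'
      exact hh (eq_inv_of_mul_eq_one_right h')
  refine (Finset.sum_congr rfl fun h _ => hterm h).trans ?_
  rw [Finset.sum_ite_eq' Finset.univ x⁻¹ (fun _ => Φ a x)]
  simp

end Core

end Fermat.Agent.S55.TateCT12
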