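/-
S55 / [TATE]-CT (helper12): the input (T1) of 11a2-TATE-CRIT (helper45 / helper43) for `k = ℤ`:
relatively projective representations are Tate-acyclic.
-/
import Fermat.Agent.S55.TateCT12.RelProj
import Fermat.Agent.S55.TateCrit45.Basic

set_option autoImplicit false

open CategoryTheory CategoryTheory.Limits

namespace Fermat.Agent.S55.TateCT12

/-- **(T1) for `ℤ`**: helper45's `T1Statement ℤ`, unconditional. -/
theorem t1Statement_int : TateCrit45.T1Statement ℤ := by
  intro H _ _ X hX n
  obtain ⟨π, hπ⟩ := hX
  exact isZero_tate_of_relProj' X π hπ n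

end Fermat.Agent.S55.TateCT12
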