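/-
S55 / [TATE]-CT (helper12): `PGroupCore ℤ 1` — the p-group input (I2) of the Nakayama–Tate
criterion (`TateNak43.CritFree` / `CritWire`), cohomological form (`d = 1`), hence
`TateNak43.CritStatement ℤ G` unconditionally.
-/
import Fermat.Agent.S55.TateCT12.PGroup
import Fermat.Agent.S55.TateCT12.Wire
import Fermat.Agent.S55.TateCT12.Wire45
import Fermat.Agent.S55.TateCrit45.Top
import Fermat.Agent.S55.TateNak43.CritWire

set_option autoImplicit false

open CategoryTheory CategoryTheory.Limits groupCohomology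

namespace Fermat.Agent.S55.TateCT12

section Generic

variable {k : Type} [CommRing k] {P : Type} [Group P] [Fintype P]

/-- `Ĥ¹(P, M) = 0` means that every 1-cocycle is a coboundary. -/
theorem exists_coboundary_of_isZero_tate_one (M : Rep.{0} k P)
    (h : IsZero (tateCohomology M 1)) (c : P → M.V)
    (hc : ∀ g h, c (g * h) = M.ρ g (c h) + c g) : ∃ m : M.V, ∀ g, c g = M.ρ g m - m := by
  have e1 := (TateCohomology.isoGroupCohomology (R := k) (G := P) 1).app M
  have h1 : IsZero (groupCohomology M 1) := IsZero.of_iso h e1.symm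
  let x : cocycles₁ M := ⟨c, (mem_cocycles₁_iff c).2 hc⟩
  have hx : H1π M x = 0 :=
    haveI := ModuleCat.subsingleton_of_isZero h1
    Subsingleton.elim _ _
  obtain ⟨m, hm⟩ := (H1π_eq_zero_iff x).1 hx
  refine ⟨m, fun g => ?_⟩
  have := congrFun hm g
  rw [d₀₁_hom_apply] at this
  exact this.symm

/-- additive form of the p-group core for `M : Rep k P`. -/
theorem exists_relProj_add {p : ℕ} [Fact p.Prime] (hP : IsPGroup p P) (M : Rep.{0} k P)
    (hp : ∀ x : M.V, p • x = 0) (h : IsZero (tateCohomology M 1)) :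
    ∃ π : M.V →+ M.V, ∀ a, ∑ g, M.ρ g (π (M.ρ g⁻¹ a)) = a :=
  exists_relProj_of_Z1 (fun g => (M.ρ g).toAddMonoidHom) hP
    (fun x => by simp) (fun g h x => by simp) hp
    (fun c hc => exists_coboundary_of_isZero_tate_one M h c hc)

/-- from the elementwise norm identity to `IsRelProj`. -/
theorem isRelProj_of_forall {V : Type} [AddCommGroup V] [Module k V] (ρ : Representation k P V)
    (π : V →ₗ[k] V) (hπ : ∀ a, ∑ g, ρ g (π (ρ g⁻¹ a)) = a) : TateCrit45.IsRelProj ρ :=
  ⟨π, LinearMap.ext fun a => by
    rw [LinearMap.sum_apply]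
    exact hπ a⟩

end Generic

/-- **(I2) with `d = 1`**: for a finite `p`-group `P` and a `p`-torsion `M`, `Ĥ¹(P, M) = 0`
implies that `M` is relatively projective. -/
theorem pGroupCore_one : TateNak43.CritFree.PGroupCore ℤ 1 := by
  intro p _ P _ _ hP M hp h
  obtain ⟨π, hπ⟩ := exists_relProj_add hP M hp h
  exact @isRelProj_of_forall ℤ _ P _ _ M.V _ M.hV2 M.ρ (linOfAdd M.hV2 M.hV2 π) hπ

/-- **The Nakayama–Tate criterion (helper43's `CritStatement`), unconditional.** -/
theorem critStatement (G : Type) [Group G] [Fintype G] : TateNak43.CritStatement ℤ G :=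
  TateNak43.CritWire.critStatement t1Statement_int pGroupCore_one
    (TateCrit45.cardKills t1Statement_int) (TateCrit45.sylowDetect t1Statement_int)

end Fermat.Agent.S55.TateCT12
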